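import Fermat.Agent.ORD.Kum

/-!
# Kummer elements at `p`
-/

set_option autoImplicit false

namespace Fermat.Agent.ORD

local notation "Qb" => AlgebraicClosure ℚ
local notation "GQ" => AlgebraicClosure ℚ ≃ₐ[ℚ] AlgebraicClosure ℚ

variable {p : ℕ} [hp : Fact p.Prime]

/-- A Frobenius element `φ` fixing `μ_{p^∞}` and an element `τ` of inertia fixing `μ_{p^∞}`, all
the `p`-power roots of units of the fixed field of inertia, and moving `p^{1/p}`. -/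
structure Pair (p : ℕ) (A : ValuationSubring Qb) (φ τ : GQ) : Prop where
  frob : A.IsFrobeniusAt φ p
  phi_mu : ∀ (n : ℕ) (μ : Qb), μ ^ (p ^ n) = 1 → φ μ = μ
  tau_mem : τ ∈ A.inertiaSubgroupIn ℚ
  tau_mu : ∀ (n : ℕ) (μ : Qb), μ ^ (p ^ n) = 1 → τ μ = μ
  tau_unit : ∀ (n : ℕ) (w : Qb), A.valuation w = 1 →
    (∀ s ∈ A.inertiaSubgroupIn ℚ, s (w ^ (p ^ n)) = w ^ (p ^ n)) → τ w = w
  tau_p : ∀ w : Qb, w ^ p = p → τ w ≠ w

variable {A : ValuationSubring Qb} (hA : A.LiesOverPrime p)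

include hA in
/-- existence of `τ` -/
theorem exists_tau (hp2 : p ≠ 2) : ∃ τ ∈ A.inertiaSubgroupIn ℚ,
    (∀ (n : ℕ) (μ : Qb), μ ^ (p ^ n) = 1 → τ μ = μ) ∧
    (∀ (n : ℕ) (w : Qb), A.valuation w = 1 →
      (∀ s ∈ A.inertiaSubgroupIn ℚ, s (w ^ (p ^ n)) = w ^ (p ^ n)) → τ w = w) ∧
    (∀ w : Qb, w ^ p = p → τ w ≠ w) := by
  classical
  obtain ⟨x, hx⟩ := IsAlgClosed.exists_pow_nat_eq (p : Qb) hp.out.pos
  let ι := {w : Qb // A.valuation w = 1 ∧ ∃ n : ℕ,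
      ∀ s ∈ A.inertiaSubgroupIn ℚ, s (w ^ (p ^ n)) = w ^ (p ^ n)}
  let T : Set GQ := (A.inertiaSubgroupIn ℚ : Set GQ) ∩ {σ | σ x ≠ x}
  have hT : IsClosed T := (isClosed_inertia A).inter (isClopen_apply x (fun y => y ≠ x)).1
  let Z : ι → Set GQ := fun w => {σ | σ w.1 = w.1}
  have hZ : ∀ i, IsClosed (Z i) := fun i => (isClopen_apply i.1 (fun y => y = i.1)).1
  have hfin : ∀ u : Finset ι, (T ∩ ⋂ i ∈ u, Z i).Nonempty := by
    intro u
    choose n hn using fun w : ι => w.2.2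
    let m : ℕ := (∑ w ∈ u, n w) + 1
    obtain ⟨τ, h1, -, h2, h3⟩ := exists_tau_fin hA hp2 (m := m) (Nat.succ_pos _)
      (u.image Subtype.val) (by
        intro w hw
        obtain ⟨w', hw', rfl⟩ := Finset.mem_image.mp hw
        refine ⟨w'.2.1, fun s hs => ?_⟩
        have hle : n w' ≤ m := (Finset.single_le_sum (f := n) (fun _ _ => Nat.zero_le _) hw').trans
          (Nat.le_succ _)
        obtain ⟨k, hk⟩ := Nat.exists_eq_add_of_le hle
        rw [hk, pow_add, pow_mul, map_pow, hn w' s hs]) hx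
    refine ⟨τ, ⟨h1, h3⟩, ?_⟩
    rw [Set.mem_iInter₂]
    intro i hi
    exact h2 _ (Finset.mem_image_of_mem _ hi)
  obtain ⟨τ, ⟨hτ1, hτ2⟩, hτ3⟩ := (hT.isCompact).inter_iInter_nonempty Z hZ hfin
  rw [Set.mem_iInter] at hτ3
  have hmu : ∀ (n : ℕ) (μ : Qb), μ ^ (p ^ n) = 1 → τ μ = μ := by
    intro n μ hμ
    exact hτ3 ⟨μ, v_root (pow_pos hp.out.pos n).ne' hμ, n, fun s _ => by rw [hμ, map_one]⟩
  refine ⟨τ, hτ1, hmu, fun n w hw hs => hτ3 ⟨w, hw, n, hs⟩, fun w hw hcon => ?_⟩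
  have hx0 : x ≠ 0 := by
    rintro rfl
    rw [zero_pow hp.out.ne_zero] at hx
    exact hp.out.ne_zero (by exact_mod_cast hx.symm)
  have hw0 : w ≠ 0 := by
    rintro rfl
    rw [zero_pow hp.out.ne_zero] at hw
    exact hp.out.ne_zero (by exact_mod_cast hw.symm)
  have h1 : τ (x / w) = x / w := by
    refine hmu 1 _ ?_
    rw [pow_one, div_pow, hx, hw, div_self]
    exact_mod_cast hp.out.ne_zero
  rw [map_div₀, hcon, div_left_inj' hw0] at h1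
  exact hτ2 h1

omit hp in
theorem frob_mul {φ s : GQ} (hφ : A.IsFrobeniusAt φ p) (hs : s ∈ A.inertiaSubgroupIn ℚ) :
    A.IsFrobeniusAt (φ * s) p := by
  obtain ⟨hD, h⟩ := hφ
  obtain ⟨s', hs', rfl⟩ := hs
  refine ⟨mul_mem hD s'.2, fun x => ?_⟩
  have hs'' : MulSemiringAction.toRingAut (A.decompositionSubgroup ℚ)
      (IsLocalRing.ResidueField A) s' = 1 := hs'
  have h1 : s' • x = x := by
    have := congrArg (fun f : RingAut (IsLocalRing.ResidueField A) => f x) hs''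
    simpa using this
  have h2 : (⟨φ * ((A.decompositionSubgroup ℚ).subtype s'), mul_mem hD s'.2⟩ :
      A.decompositionSubgroup ℚ) = ⟨φ, hD⟩ * s' := rfl
  rw [h2, mul_smul, h1]
  exact h x

include hA in
/-- existence of `φ` -/
theorem exists_phi : ∃ φ : GQ, A.IsFrobeniusAt φ p ∧
    ∀ (n : ℕ) (μ : Qb), μ ^ (p ^ n) = 1 → φ μ = μ := by
  classical
  obtain ⟨φ₀, hφ₀⟩ := Frob.exists_isFrobeniusAt (L := Qb) hp.out hA
  let ι := {μ : Qb // ∃ n : ℕ, μ ^ (p ^ n) = 1}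
  let Z : ι → Set GQ := fun w => {σ | σ w.1 = φ₀⁻¹ w.1}
  have hZ : ∀ i, IsClosed (Z i) := fun i => (isClopen_apply i.1 (fun y => y = φ₀⁻¹ i.1)).1
  have hfin : ∀ u : Finset ι, ((A.inertiaSubgroupIn ℚ : Set GQ) ∩ ⋂ i ∈ u, Z i).Nonempty := by
    intro u
    choose n hn using fun w : ι => w.2
    let m : ℕ := ∑ w ∈ u, n w
    have hne : NeZero (p ^ m) := ⟨(pow_pos hp.out.pos m).ne'⟩
    obtain ⟨ζ, hζ⟩ := HasEnoughRootsOfUnity.exists_primitiveRoot Qb (p ^ m)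
    obtain ⟨s, hs, h⟩ := exists_inertia_root hA m hζ (hζ.map_of_injective (φ₀⁻¹).injective)
    refine ⟨s, hs, ?_⟩
    rw [Set.mem_iInter₂]
    intro i hi
    refine root_of_fix hζ h ?_
    have hle : n i ≤ m := Finset.single_le_sum (f := n) (fun _ _ => Nat.zero_le _) hi
    obtain ⟨k, hk⟩ := Nat.exists_eq_add_of_le hle
    rw [hk, pow_add, pow_mul, hn i, one_pow]
  obtain ⟨s, hs, hs2⟩ := ((isClosed_inertia A).isCompact).inter_iInter_nonempty Z hZ hfin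
  rw [Set.mem_iInter] at hs2
  refine ⟨φ₀ * s, frob_mul hφ₀ hs, fun n μ hμ => ?_⟩
  have h1 : s μ = φ₀⁻¹ μ := hs2 ⟨μ, n, hμ⟩
  rw [AlgEquiv.mul_apply, h1]
  exact φ₀.apply_symm_apply μ

include hA in
/-- **Existence of Kummer elements** -/
theorem exists_pair (hp2 : p ≠ 2) : ∃ φ τ : GQ, Pair p A φ τ := by
  obtain ⟨φ, h1, h2⟩ := exists_phi hA
  obtain ⟨τ, h3, h4, h5, h6⟩ := exists_tau hA hp2
  exact ⟨φ, τ, h1, h2, h3, h4, h5, h6⟩

omit hp in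
theorem Pair.phi_mem {φ τ : GQ} (h : Pair p A φ τ) : φ ∈ A.decompositionSubgroup ℚ :=
  h.frob.mem_decompositionSubgroup

omit hp in
theorem Pair.conj_mem {φ τ : GQ} (h : Pair p A φ τ) : φ * τ * φ⁻¹ ∈ A.inertiaSubgroupIn ℚ :=
  conj_mem_inertia h.phi_mem h.tau_mem

omit hp in
/-- `φ τ φ⁻¹` fixes the `p`-power roots of unity -/
theorem Pair.conj_mu {φ τ : GQ} (h : Pair p A φ τ) (n : ℕ) (μ : Qb) (hμ : μ ^ (p ^ n) = 1) :
    (φ * τ * φ⁻¹) μ = μ := by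
  have h1 : φ⁻¹ μ = μ := by
    conv_lhs => rw [← h.phi_mu n μ hμ]
    exact φ.symm_apply_apply μ
  rw [AlgEquiv.mul_apply, AlgEquiv.mul_apply, h1, h.tau_mu n μ hμ, h.phi_mu n μ hμ]

open scoped Pointwise in
theorem val_phi {φ : GQ} (hφ : φ ∈ A.decompositionSubgroup ℚ) (x : Qb) (hx : A.valuation x = 1) :
    A.valuation (φ⁻¹ x) = 1 := by
  have hmem : (φ⁻¹ • A : ValuationSubring Qb) = A := inv_mem hφ
  have hle : ∀ y : Qb, A.valuation y ≤ 1 → A.valuation (φ⁻¹ y) ≤ 1 := by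
    intro y hy
    rw [A.valuation_le_one_iff] at hy ⊢
    have : φ⁻¹ • y ∈ φ⁻¹ • A := (ValuationSubring.smul_mem_pointwise_smul_iff).mpr hy
    rw [hmem] at this
    exact this
  refine le_antisymm (hle x hx.le) ?_
  have h1 := hle x⁻¹ (by rw [map_inv₀, hx, inv_one])
  rw [map_inv₀, map_inv₀] at h1
  have hx0 : A.valuation (φ⁻¹ x) ≠ 0 := by
    rw [Valuation.ne_zero_iff, map_ne_zero]
    rintro rfl
    rw [map_zero] at hx
    exact zero_ne_one hx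
  exact (inv_le_one₀ (zero_lt_iff.mpr hx0)).mp h1

/-- `φ τ φ⁻¹` fixes the `p`-power roots of units -/
theorem Pair.conj_unit {φ τ : GQ} (h : Pair p A φ τ) (n : ℕ) (w : Qb) (hw : A.valuation w = 1)
    (hs : ∀ s ∈ A.inertiaSubgroupIn ℚ, s (w ^ (p ^ n)) = w ^ (p ^ n)) :
    (φ * τ * φ⁻¹) w = w := by
  have h1 : τ (φ⁻¹ w) = φ⁻¹ w := by
    refine h.tau_unit n _ (val_phi h.phi_mem w hw) fun s hs' => ?_
    have h2 := hs _ (conj_mem_inertia h.phi_mem hs')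
    have h3 : (φ⁻¹ : GQ) ((φ * s * φ⁻¹) (w ^ (p ^ n))) = (φ⁻¹ : GQ) (w ^ (p ^ n)) := by rw [h2]
    rw [AlgEquiv.mul_apply, AlgEquiv.mul_apply] at h3
    have h4 : φ⁻¹ (φ (s (φ⁻¹ (w ^ (p ^ n))))) = s (φ⁻¹ (w ^ (p ^ n))) := φ.symm_apply_apply _
    rw [h4, map_pow] at h3
    exact h3
  rw [AlgEquiv.mul_apply, AlgEquiv.mul_apply, h1]
  exact φ.apply_symm_apply w

/-- the action on `p^n`-th roots of `p` -/
theorem Pair.conj_p {φ τ : GQ} (h : Pair p A φ τ) {n : ℕ} {w : Qb} (hw : w ^ (p ^ n) = p) :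
    (φ * τ * φ⁻¹) w = τ w := by
  have hp0 : (p : Qb) ≠ 0 := by exact_mod_cast hp.out.ne_zero
  have hw0 : w ≠ 0 := by
    rintro rfl
    rw [zero_pow (pow_pos hp.out.pos n).ne'] at hw
    exact hp0 hw.symm
  have hr : ∀ s : GQ, (s w / w) ^ (p ^ n) = 1 := by
    intro s
    rw [div_pow, ← map_pow, hw, map_natCast, div_self hp0]
  have h1 : φ⁻¹ w = (φ⁻¹ w / w) * w := (div_mul_cancel₀ _ hw0).symm
  have h2 : τ w = (τ w / w) * w := (div_mul_cancel₀ _ hw0).symm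
  have h3 : τ (φ⁻¹ w) = (τ w / w) * φ⁻¹ w := by
    conv_lhs => rw [h1]
    rw [map_mul, h.tau_mu n _ (hr φ⁻¹), h2]
    field_simp
  rw [AlgEquiv.mul_apply, AlgEquiv.mul_apply, h3, map_mul, h.phi_mu n _ (hr τ)]
  have h4 : φ (φ⁻¹ w) = w := φ.apply_symm_apply w
  rw [h4, ← h2]

include hA in
/-- **Cocycles have the same value at `τ` and `φ τ φ⁻¹`**. -/
theorem Pair.conj_eq {φ τ : GQ} (h : Pair p A φ τ) (n : ℕ) {B : Type*} [AddCommGroup B] [Finite B]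
    (hB : ∀ b : B, p ^ n • b = 0) (y : GQ → B)
    (hy : ∀ s ∈ A.inertiaSubgroupIn ℚ, ∀ t ∈ A.inertiaSubgroupIn ℚ, ∀ a : ℕ,
      (∀ μ : Qb, μ ^ (p ^ n) = 1 → s μ = μ ^ a) → y (s * t) = y s + a • y t)
    {E : IntermediateField ℚ Qb} [FiniteDimensional ℚ E]
    (hE : ∀ s ∈ A.inertiaSubgroupIn ℚ, (∀ x ∈ E, s x = x) → y s = 0) :
    y (φ * τ * φ⁻¹) = y τ := by
  classical
  by_contra hne
  have hpn : 0 < p ^ n := pow_pos hp.out.pos n
  have hneZ : NeZero (p ^ n) := ⟨hpn.ne'⟩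
  set b := Multiplicative.ofAdd (y (φ * τ * φ⁻¹) - y τ) with hb
  have hb1 : b ≠ 1 := by
    intro h1
    apply hne
    rw [hb, ofAdd_eq_one, sub_eq_zero] at h1
    exact h1
  have hfinM : Finite (Multiplicative B) := inferInstanceAs (Finite B)
  have hexp0 : Monoid.exponent (Multiplicative B) ≠ 0 := Monoid.exponent_ne_zero_of_finite
  have hneE : NeZero (Monoid.exponent (Multiplicative B)) := ⟨hexp0⟩
  obtain ⟨lam, hlam⟩ := CommGroup.exists_apply_ne_one_of_hasEnoughRootsOfUnity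
    (Multiplicative B) Qb hb1
  -- the multiplicative cocycle
  let Y : GQ → Qbˣ := fun s => lam (Multiplicative.ofAdd (y s))
  have hYroot : ∀ s, ((Y s : Qbˣ) : Qb) ^ (p ^ n) = 1 := by
    intro s
    rw [← Units.val_pow_eq_pow_val]
    show ((lam (Multiplicative.ofAdd (y s)) ^ (p ^ n) : Qbˣ) : Qb) = 1
    rw [← map_pow, ← ofAdd_nsmul, hB, ofAdd_zero, map_one, Units.val_one]
  have hcoc : ∀ s ∈ A.inertiaSubgroupIn ℚ, ∀ t ∈ A.inertiaSubgroupIn ℚ,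
      Y (s * t) = Y s * s • Y t := by
    intro s hs t ht
    obtain ⟨ζ, hζ⟩ := HasEnoughRootsOfUnity.exists_primitiveRoot Qb (p ^ n)
    obtain ⟨a, -, ha⟩ := hζ.eq_pow_of_pow_eq_one (ξ := s ζ)
      (by rw [← map_pow, hζ.pow_eq_one, map_one])
    have hsa : ∀ μ : Qb, μ ^ (p ^ n) = 1 → s μ = μ ^ a := by
      intro μ hμ
      obtain ⟨k, -, rfl⟩ := hζ.eq_pow_of_pow_eq_one hμ
      rw [map_pow, ← ha, ← pow_mul, ← pow_mul, mul_comm]
    have h1 := hy s hs t ht a hsa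
    apply Units.ext
    show ((lam (Multiplicative.ofAdd (y (s * t))) : Qbˣ) : Qb) = _
    rw [h1, ofAdd_add, ofAdd_nsmul, map_mul, map_pow, Units.val_mul, Units.val_mul,
      Units.val_pow_eq_pow_val]
    congr 1
    show ((Y t : Qbˣ) : Qb) ^ a = s ((Y t : Qbˣ) : Qb)
    rw [hsa _ (hYroot t)]
  obtain ⟨x, hx0, hx⟩ := hilbert90_sub (A.inertiaSubgroupIn ℚ) Y hcoc (E := E) (by
    intro s hs hsE
    show lam (Multiplicative.ofAdd (y s)) = 1
    rw [hE s hs hsE, ofAdd_zero, map_one])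
  -- the valuation of `x ^ (p ^ n)`
  have hxfix : ∀ s ∈ A.inertiaSubgroupIn ℚ, s (x ^ (p ^ n)) = x ^ (p ^ n) := by
    intro s hs
    have h1 : (s x / x) ^ (p ^ n) = 1 := by rw [← hx s hs]; exact hYroot s
    rw [div_pow, ← map_pow, div_eq_one_iff_eq (pow_ne_zero _ hx0)] at h1
    exact h1
  obtain ⟨k, hk⟩ := SEL.exists_valuation_zpow_of_inertia A hp.out hA (pow_ne_zero _ hx0) hxfix
  obtain ⟨π, hπ⟩ := IsAlgClosed.exists_pow_nat_eq (p : Qb) hpn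
  have hp0 : (p : Qb) ≠ 0 := by exact_mod_cast hp.out.ne_zero
  have hπ0 : π ≠ 0 := by
    rintro rfl
    rw [zero_pow hpn.ne'] at hπ
    exact hp0 hπ.symm
  set z := x / π ^ k with hz
  have hzp : z ^ (p ^ n) = x ^ (p ^ n) / (p : Qb) ^ k := by
    rw [hz, div_pow, ← hπ]
    congr 1
    rw [← zpow_natCast, ← zpow_natCast, ← zpow_mul, ← zpow_mul, mul_comm]
  have hvz : A.valuation z = 1 := by
    have h1 : A.valuation z ^ (p ^ n) = 1 := by
      rw [← map_pow, hzp, map_div₀, map_zpow₀, hk, div_self]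
      exact zpow_ne_zero _ (v_p_ne hp.out)
    exact (pow_eq_one_iff_of_nonneg zero_le hpn.ne').mp h1
  have hzfix : ∀ s ∈ A.inertiaSubgroupIn ℚ, s (z ^ (p ^ n)) = z ^ (p ^ n) := by
    intro s hs
    rw [hzp, map_div₀, hxfix s hs, map_zpow₀, map_natCast]
  have hxz : x = z * π ^ k := by rw [hz, div_mul_cancel₀ _ (zpow_ne_zero _ hπ0)]
  have h1 : τ x = (φ * τ * φ⁻¹) x := by
    rw [hxz, map_mul, map_mul, h.tau_unit n z hvz hzfix, h.conj_unit n z hvz hzfix, map_zpow₀,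
      map_zpow₀, h.conj_p hπ]
  apply hlam
  have h2 : Y (φ * τ * φ⁻¹) = Y τ := by
    apply Units.ext
    rw [hx _ h.conj_mem, hx _ h.tau_mem, h1]
  rw [hb, ofAdd_sub, map_div, div_eq_one]
  exact h2

end Fermat.Agent.ORD
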