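import Mathlib
import Fermat.Agent.SEL.Val
import Fermat.Agent.Frob.Exists

/-!
# Hilbert 90 for subgroups of the absolute Galois group, closed conditions
-/

set_option autoImplicit false

namespace Fermat.Agent.ORD

local notation "Qb" => AlgebraicClosure ℚ
local notation "GQ" => AlgebraicClosure ℚ ≃ₐ[ℚ] AlgebraicClosure ℚ

/-- Hilbert 90 for locally constant cocycles on a subgroup of `Gal(ℚ̄/ℚ)`. -/
theorem hilbert90_sub (H : Subgroup GQ) (g : GQ → Qbˣ)
    (hg : ∀ s ∈ H, ∀ t ∈ H, g (s * t) = g s * s • g t)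
    {E : IntermediateField ℚ Qb} [FiniteDimensional ℚ E]
    (hE : ∀ s ∈ H, (∀ x ∈ E, s x = x) → g s = 1) :
    ∃ β : Qb, β ≠ 0 ∧ ∀ s ∈ H, ((g s : Qbˣ) : Qb) = s β / β := by
  classical
  -- restriction
  let ρ : H → (E →ₐ[ℚ] Qb) := fun s => ((s : GQ) : Qb →ₐ[ℚ] Qb).comp E.val
  have hfin : Finite (E →ₐ[ℚ] Qb) := inferInstance
  have hdep : ∀ s t : H, ρ s = ρ t → g s = g t := by
    intro s t hst
    have h1 : ∀ x ∈ E, ((s⁻¹ * t : H) : GQ) x = x := by
      intro x hx
      have h2 : (s : GQ) x = (t : GQ) x := DFunLike.congr_fun hst ⟨x, hx⟩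
      show (s : GQ)⁻¹ ((t : GQ) x) = x
      rw [← h2]
      exact (s : GQ).symm_apply_apply x
    have h2 : (t : GQ) = (s : GQ) * ((s⁻¹ * t : H) : GQ) := by
      show (t : GQ) = (s : GQ) * ((s : GQ)⁻¹ * (t : GQ)); group
    rw [h2, hg s s.2 _ (s⁻¹ * t : H).2, hE _ (s⁻¹ * t : H).2 h1, smul_one, mul_one]
  let R := Set.range ρ
  have : Finite R := inferInstance
  have : Fintype R := Fintype.ofFinite _
  let l : R → H := fun c => c.2.choose
  have hl : ∀ c : R, ρ (l c) = c.1 := fun c => c.2.choose_spec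
  -- action of `H` on the range
  let act : H → R → R := fun s c => ⟨ρ (s * l c), ⟨_, rfl⟩⟩
  have hact : ∀ s c, ρ (l (act s c)) = ρ (s * l c) := fun s c => hl _
  have hinj : ∀ s, Function.Injective (act s) := by
    intro s c c' h
    have h1 : ρ (s * l c) = ρ (s * l c') := congrArg Subtype.val h
    apply Subtype.ext
    rw [← hl c, ← hl c']
    ext x
    have h2 : (s : GQ) ((l c : GQ) x) = (s : GQ) ((l c' : GQ) x) := DFunLike.congr_fun h1 x
    exact (s : GQ).injective h2
  have hbij : ∀ s, Function.Bijective (act s) := fun s => (Finite.injective_iff_bijective.mp (hinj s))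
  -- the sum
  have hli := linearIndependent_monoidHom E Qb
  have hinj2 : Function.Injective (fun c : R => ((c.1 : E →ₐ[ℚ] Qb) : E →* Qb)) := by
    intro c c' h
    apply Subtype.ext
    ext x
    exact DFunLike.congr_fun h x
  have hli2 := hli.comp _ hinj2
  rw [Fintype.linearIndependent_iff] at hli2
  obtain ⟨z, hz⟩ : ∃ z : E, ∑ c : R, ((g (l c) : Qbˣ) : Qb) * (l c : GQ) z ≠ 0 := by
    by_contra hcon
    push Not at hcon
    let c₀ : R := ⟨ρ 1, ⟨1, rfl⟩⟩
    have h1 := hli2 (fun c => ((g (l c) : Qbˣ) : Qb)) (by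
      funext z
      rw [Finset.sum_apply]
      refine (Finset.sum_congr rfl fun c _ => ?_).trans (hcon z)
      show ((g (l c) : Qbˣ) : Qb) * (c.1 z) = _
      rw [← hl c]
      rfl) c₀
    exact (g (l c₀)).ne_zero h1
  refine ⟨(∑ c : R, ((g (l c) : Qbˣ) : Qb) * (l c : GQ) z)⁻¹, inv_ne_zero hz, ?_⟩
  intro s hs
  have key : s (∑ c : R, ((g (l c) : Qbˣ) : Qb) * (l c : GQ) z) =
      ((g s : Qbˣ) : Qb)⁻¹ * ∑ c : R, ((g (l c) : Qbˣ) : Qb) * (l c : GQ) z := by
    rw [map_sum, Finset.mul_sum]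
    rw [← (hbij ⟨s, hs⟩).sum_comp (fun c => ((g s : Qbˣ) : Qb)⁻¹ *
      (((g (l c) : Qbˣ) : Qb) * (l c : GQ) z))]
    refine Finset.sum_congr rfl fun c _ => ?_
    have h1 : g (l (act ⟨s, hs⟩ c)) = g s * s • g (l c) := by
      rw [hdep _ _ (hact ⟨s, hs⟩ c)]
      exact hg s hs _ (l c).2
    have h2 : (l (act ⟨s, hs⟩ c) : GQ) z = s ((l c : GQ) z) :=
      DFunLike.congr_fun (hact ⟨s, hs⟩ c) z
    rw [h1, h2, map_mul, Units.val_mul, mul_assoc, ← mul_assoc, ← mul_assoc,
      inv_mul_cancel₀ (g s).ne_zero, one_mul]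
    rfl
  rw [map_inv₀, key, mul_inv, inv_inv, inv_eq_one_div, mul_div_assoc, div_self (one_div_ne_zero hz),
    mul_one]

/-- A condition on `σ x` is clopen. -/
theorem isClopen_apply (x : Qb) (P : Qb → Prop) : IsClopen {σ : GQ | P (σ x)} := by
  have h : ∀ P : Qb → Prop, IsOpen {σ : GQ | P (σ x)} := by
    intro P
    rw [isOpen_iff_mem_nhds]
    intro σ hσ
    have hfd : FiniteDimensional ℚ (IntermediateField.adjoin ℚ {x}) :=
      IntermediateField.adjoin.finiteDimensional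
        ((AlgebraicClosure.isAlgebraic ℚ).isIntegral.isIntegral x)
    have h1 : IsOpen ((IntermediateField.adjoin ℚ {x}).fixingSubgroup : Set GQ) :=
      IntermediateField.fixingSubgroup_isOpen _
    have h2 : IsOpen ((fun τ : GQ => σ * τ) '' ((IntermediateField.adjoin ℚ {x}).fixingSubgroup : Set GQ)) :=
      (Homeomorph.mulLeft σ).isOpenMap _ h1
    refine Filter.mem_of_superset (h2.mem_nhds ⟨1, one_mem _, mul_one σ⟩) ?_
    rintro _ ⟨τ, hτ, rfl⟩
    have h3 : τ x = x := (IntermediateField.mem_fixingSubgroup_iff _ τ).mp hτ x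
      (IntermediateField.mem_adjoin_simple_self ℚ x)
    show P ((σ * τ) x)
    rw [AlgEquiv.mul_apply, h3]
    exact hσ
  refine ⟨?_, h P⟩
  rw [← isOpen_compl_iff]
  exact h (fun y => ¬ P y)

open scoped Pointwise in
/-- membership in the inertia group -/
theorem mem_inertia_iff (A : ValuationSubring Qb) (σ : GQ) :
    σ ∈ A.inertiaSubgroupIn ℚ ↔ ((∀ x, σ x ∈ A ↔ x ∈ A) ∧
      ∀ x ∈ A, A.valuation (σ x - x) < 1) := by
  have hsmul : σ ∈ A.decompositionSubgroup ℚ ↔ ∀ x, σ x ∈ A ↔ x ∈ A := by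
    show (σ • A = A) ↔ _
    constructor
    · intro h x
      constructor
      · intro hx
        have : σ • x ∈ σ • A := by rw [h]; exact hx
        exact (ValuationSubring.smul_mem_pointwise_smul_iff).mp this
      · intro hx
        have : σ • x ∈ σ • A := (ValuationSubring.smul_mem_pointwise_smul_iff).mpr hx
        rw [h] at this
        exact this
    · intro h
      ext x
      rw [ValuationSubring.mem_pointwise_smul_iff_inv_smul_mem, ← h]
      show σ (σ⁻¹ x) ∈ A ↔ _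
      have : σ (σ⁻¹ x) = x := σ.apply_symm_apply x
      rw [this]
  constructor
  · rintro ⟨τ, hτ, rfl⟩
    refine ⟨hsmul.mp τ.2, fun x hx => ?_⟩
    have hτ' : MulSemiringAction.toRingAut (A.decompositionSubgroup ℚ)
        (IsLocalRing.ResidueField A) τ = 1 := hτ
    set a : A := ⟨x, hx⟩ with ha
    have h1 : τ • (IsLocalRing.residue A a) = IsLocalRing.residue A a := by
      have := congrArg (fun f : RingAut (IsLocalRing.ResidueField A) =>
        f (IsLocalRing.residue A a)) hτ'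
      simpa using this
    have h2 : IsLocalRing.residue A (τ • a) = IsLocalRing.residue A a := by
      rw [← h1]; rfl
    have h3 : τ • a - a ∈ IsLocalRing.maximalIdeal A := by
      rw [← IsLocalRing.residue_eq_zero_iff, _root_.map_sub, h2, sub_self]
    exact (A.valuation_lt_one_iff _).mp h3
  · rintro ⟨h1, h2⟩
    refine ⟨⟨σ, hsmul.mpr h1⟩, ?_, rfl⟩
    change MulSemiringAction.toRingAut (A.decompositionSubgroup ℚ)
      (IsLocalRing.ResidueField A) ⟨σ, hsmul.mpr h1⟩ = 1
    ext x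
    obtain ⟨a, rfl⟩ := IsLocalRing.residue_surjective x
    have h3 : (⟨σ, hsmul.mpr h1⟩ : A.decompositionSubgroup ℚ) • a - a ∈
        IsLocalRing.maximalIdeal A := (A.valuation_lt_one_iff _).mpr (h2 a a.2)
    rw [← IsLocalRing.residue_eq_zero_iff, _root_.map_sub, sub_eq_zero] at h3
    exact h3

/-- the inertia group is closed -/
theorem isClosed_inertia (A : ValuationSubring Qb) :
    IsClosed (A.inertiaSubgroupIn ℚ : Set GQ) := by
  have h : (A.inertiaSubgroupIn ℚ : Set GQ) =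
      (⋂ x : Qb, {σ : GQ | (σ x ∈ A ↔ x ∈ A)}) ∩
      ⋂ x : A, {σ : GQ | A.valuation (σ (x : Qb) - x) < 1} := by
    ext σ
    rw [SetLike.mem_coe, mem_inertia_iff]
    simp only [Set.mem_inter_iff, Set.mem_iInter, Set.mem_ofPred_eq, Subtype.forall]
  rw [h]
  refine IsClosed.inter (isClosed_iInter fun x => ?_) (isClosed_iInter fun x => ?_)
  · exact (isClopen_apply x (fun y => (y ∈ A ↔ x ∈ A))).1
  · exact (isClopen_apply (x : Qb) (fun y => A.valuation (y - x) < 1)).1

/-- normality of inertia in the decomposition group -/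
theorem conj_mem_inertia {A : ValuationSubring Qb} {φ τ : GQ}
    (hφ : φ ∈ A.decompositionSubgroup ℚ) (hτ : τ ∈ A.inertiaSubgroupIn ℚ) :
    φ * τ * φ⁻¹ ∈ A.inertiaSubgroupIn ℚ := by
  obtain ⟨τ', hτ', rfl⟩ := hτ
  refine ⟨⟨φ, hφ⟩ * τ' * ⟨φ, hφ⟩⁻¹, ?_, rfl⟩
  have : (A.inertiaSubgroup ℚ).Normal := by
    show (MonoidHom.ker _).Normal
    infer_instance
  exact this.conj_mem _ hτ' _

end Fermat.Agent.ORD
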