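import Fermat.Agent.ORD.Ram

/-!
# Kummer theory: an element fixed by the stabiliser of finitely many Kummer generators
-/

set_option autoImplicit false

namespace Fermat.Agent.ORD

local notation "Qb" => AlgebraicClosure ℚ
local notation "GQ" => AlgebraicClosure ℚ ≃ₐ[ℚ] AlgebraicClosure ℚ

variable {p : ℕ} [hp : Fact p.Prime]

/-- the Kummer character -/
theorem kum_mul {H : Subgroup GQ} {N : ℕ} (hμ : ∀ s ∈ H, ∀ μ : Qb, μ ^ N = 1 → s μ = μ)
    {w : Qb} (hw0 : w ≠ 0) (hw : ∀ s ∈ H, (s w / w) ^ N = 1) {s t : GQ} (hs : s ∈ H) (ht : t ∈ H) :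
    (s * t) w / w = (s w / w) * (t w / w) := by
  have h1 : t w = (t w / w) * w := (div_mul_cancel₀ _ hw0).symm
  have h2 : (s * t) w = (t w / w) * s w := by
    rw [AlgEquiv.mul_apply]
    conv_lhs => rw [h1]
    rw [map_mul, hμ s hs _ (hw t ht)]
  rw [h2]
  field_simp

theorem kum_pow {H : Subgroup GQ} {N : ℕ} (hμ : ∀ s ∈ H, ∀ μ : Qb, μ ^ N = 1 → s μ = μ)
    {w : Qb} (hw0 : w ≠ 0) (hw : ∀ s ∈ H, (s w / w) ^ N = 1) {s : GQ} (hs : s ∈ H) (k : ℕ) :
    (s ^ k) w / w = (s w / w) ^ k := by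
  induction k with
  | zero => rw [pow_zero, pow_zero, AlgEquiv.one_apply, div_self hw0]
  | succ k ih => rw [pow_succ, kum_mul hμ hw0 hw (pow_mem hs k) hs, ih, pow_succ]

/-- one step: if the stabiliser of `w` in `H` fixes `y` then `y * w ^ a` is fixed by `H`. -/
theorem kum_step {H : Subgroup GQ} {m : ℕ}
    (hμ : ∀ s ∈ H, ∀ μ : Qb, μ ^ (p ^ m) = 1 → s μ = μ)
    {w y : Qb} (hw0 : w ≠ 0) (hw : ∀ s ∈ H, (s w / w) ^ (p ^ m) = 1)
    (hy0 : y ≠ 0) (hy : ∀ s ∈ H, (s y / y) ^ (p ^ m) = 1)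
    (h : ∀ s ∈ H, s w = w → s y = y) : ∃ a : ℕ, ∀ s ∈ H, s (y * w ^ a) = y * w ^ a := by
  classical
  have hpm : 0 < p ^ m := pow_pos hp.out.pos m
  -- an element of maximal order
  let P : ℕ → Prop := fun j => ∃ s ∈ H, orderOf (s w / w) = p ^ j
  have hord : ∀ s ∈ H, ∃ j ≤ m, orderOf (s w / w) = p ^ j := by
    intro s hs
    have h1 : orderOf (s w / w) ∣ p ^ m := orderOf_dvd_of_pow_eq_one (hw s hs)
    exact (Nat.dvd_prime_pow hp.out).mp h1
  have hP0 : P 0 := ⟨1, one_mem _, by rw [AlgEquiv.one_apply, div_self hw0, orderOf_one, pow_zero]⟩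
  set J := Nat.findGreatest P m with hJ
  obtain ⟨s₀, hs₀, hord₀⟩ : P J := Nat.findGreatest_spec (Nat.zero_le m) hP0
  have hle : ∀ s ∈ H, orderOf (s w / w) ∣ p ^ J := by
    intro s hs
    obtain ⟨j, hj, hj2⟩ := hord s hs
    rw [hj2]
    exact pow_dvd_pow p (Nat.le_findGreatest hj ⟨s, hs, hj2⟩)
  set χ := s₀ w / w with hχ
  have hprim : IsPrimitiveRoot χ (p ^ J) := hord₀ ▸ IsPrimitiveRoot.orderOf χ
  have hneJ : NeZero (p ^ J) := ⟨(pow_pos hp.out.pos J).ne'⟩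
  -- `s₀ y / y` is a power of `χ`
  have hy1 : (s₀ y / y) ^ (p ^ J) = 1 := by
    rw [← kum_pow hμ hy0 hy hs₀]
    have h1 : (s₀ ^ (p ^ J)) w = w := by
      have h2 := kum_pow hμ hw0 hw hs₀ (p ^ J)
      rw [← hχ, hprim.pow_eq_one] at h2
      rw [div_eq_one_iff_eq hw0] at h2
      exact h2
    rw [h _ (pow_mem hs₀ _) h1, div_self hy0]
  obtain ⟨b, hbJ, hb⟩ := hprim.eq_pow_of_pow_eq_one hy1
  refine ⟨p ^ J - b, fun s hs => ?_⟩
  obtain ⟨k, -, hk⟩ := hprim.eq_pow_of_pow_eq_one (orderOf_dvd_iff_pow_eq_one.mp (hle s hs))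
  -- `s (s₀^k)⁻¹` fixes `w`
  have h1 : (s₀ ^ k) w = s w := by
    have h2 := kum_pow hμ hw0 hw hs₀ k
    rw [← hχ, hk] at h2
    rw [div_left_inj' hw0] at h2
    exact h2
  have h2 : ((s₀ ^ k)⁻¹ * s) w = w := by
    rw [AlgEquiv.mul_apply, ← h1]
    exact (s₀ ^ k).symm_apply_apply w
  have h3 := h _ (mul_mem (inv_mem (pow_mem hs₀ k)) hs) h2
  have h4 : s y = (s₀ ^ k) y := by
    rw [AlgEquiv.mul_apply] at h3
    have h5 := congrArg (s₀ ^ k) h3
    rw [← h5]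
    exact ((s₀ ^ k).apply_symm_apply (s y)).symm
  have h5 : s y / y = χ ^ (b * k) := by
    rw [h4, kum_pow hμ hy0 hy hs₀, ← hb, ← pow_mul]
  have h6 : s y = χ ^ (b * k) * y := by rw [← h5, div_mul_cancel₀ _ hy0]
  have h7 : s w = χ ^ k * w := by rw [hk, div_mul_cancel₀ _ hw0]
  rw [map_mul, map_pow, h6, h7, mul_pow]
  have h8 : χ ^ (b * k) * (χ ^ k) ^ (p ^ J - b) = 1 := by
    rw [← pow_mul, ← pow_add]
    have : b * k + k * (p ^ J - b) = p ^ J * k := by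
      rw [mul_comm b k, ← mul_add, Nat.add_sub_cancel' hbJ.le, mul_comm]
    rw [this, pow_mul, hprim.pow_eq_one, one_pow]
  linear_combination (y * w ^ (p ^ J - b)) * h8

/-- finitely many Kummer generators -/
theorem kum_fin {m : ℕ} (F : Finset Qb) : ∀ (H : Subgroup GQ)
    (_ : ∀ s ∈ H, ∀ μ : Qb, μ ^ (p ^ m) = 1 → s μ = μ)
    (_ : ∀ w ∈ F, w ≠ 0 ∧ ∀ s ∈ H, (s w / w) ^ (p ^ m) = 1)
    {x : Qb} (_ : x ≠ 0) (_ : ∀ s ∈ H, (s x / x) ^ (p ^ m) = 1)
    (_ : ∀ s ∈ H, (∀ w ∈ F, s w = w) → s x = x),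
    ∃ a : Qb → ℕ, ∀ s ∈ H, s (x * ∏ w ∈ F, w ^ a w) = x * ∏ w ∈ F, w ^ a w := by
  classical
  induction F using Finset.induction_on with
  | empty =>
    intro H _ _ x _ _ h
    exact ⟨fun _ => 0, fun s hs => by
      rw [Finset.prod_empty, mul_one]; exact h s hs (fun w hw => absurd hw (Finset.notMem_empty w))⟩
  | insert w₀ F hw₀ ih =>
    intro H hμ hF x hx0 hx h
    let H' : Subgroup GQ :=
      { carrier := {s | s ∈ H ∧ s w₀ = w₀}
        mul_mem' := fun {s t} hs ht => ⟨mul_mem hs.1 ht.1, by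
          rw [AlgEquiv.mul_apply, ht.2, hs.2]⟩
        one_mem' := ⟨one_mem _, rfl⟩
        inv_mem' := fun {s} hs => ⟨inv_mem hs.1, by
          conv_lhs => rw [← hs.2]
          exact s.symm_apply_apply w₀⟩ }
    have hH' : ∀ s, s ∈ H' ↔ s ∈ H ∧ s w₀ = w₀ := fun _ => Iff.rfl
    obtain ⟨a, ha⟩ := ih H' (fun s hs => hμ s hs.1)
      (fun w hw => ⟨(hF w (Finset.mem_insert_of_mem hw)).1,
        fun s hs => (hF w (Finset.mem_insert_of_mem hw)).2 s hs.1⟩) hx0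
      (fun s hs => hx s hs.1) (fun s hs hw => h s hs.1 (fun w hw' => by
        rcases Finset.mem_insert.mp hw' with rfl | h1
        · exact hs.2
        · exact hw w h1))
    set y := x * ∏ w ∈ F, w ^ a w with hy
    have hy0 : y ≠ 0 := mul_ne_zero hx0 (Finset.prod_ne_zero_iff.mpr fun w hw =>
      pow_ne_zero _ (hF w (Finset.mem_insert_of_mem hw)).1)
    have hyN : ∀ s ∈ H, (s y / y) ^ (p ^ m) = 1 := by
      intro s hs
      have e : s y / y = (s x / x) * ∏ w ∈ F, (s w / w) ^ a w := by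
        rw [hy, map_mul, map_prod, mul_div_mul_comm, ← Finset.prod_div_distrib]
        congr 1
        refine Finset.prod_congr rfl fun w _ => ?_
        rw [map_pow, div_pow]
      rw [e, mul_pow, hx s hs, one_mul, ← Finset.prod_pow]
      refine Finset.prod_eq_one fun w hw => ?_
      rw [← pow_mul, mul_comm, pow_mul, (hF w (Finset.mem_insert_of_mem hw)).2 s hs, one_pow]
    obtain ⟨b, hb⟩ := kum_step (p := p) (m := m) hμ (hF w₀ (Finset.mem_insert_self _ _)).1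
      (hF w₀ (Finset.mem_insert_self _ _)).2 hy0 hyN (fun s hs hsw => ha s ⟨hs, hsw⟩)
    refine ⟨Function.update a w₀ b, fun s hs => ?_⟩
    have e : x * ∏ w ∈ insert w₀ F, w ^ (Function.update a w₀ b) w = y * w₀ ^ b := by
      rw [Finset.prod_insert hw₀, Function.update_self, hy]
      have : ∏ w ∈ F, w ^ (Function.update a w₀ b) w = ∏ w ∈ F, w ^ a w := by
        refine Finset.prod_congr rfl fun w hw => ?_
        rw [Function.update_of_ne (by rintro rfl; exact hw₀ hw)]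
      rw [this]
      ring
    rw [e]
    exact hb s hs

variable {A : ValuationSubring Qb} (hA : A.LiesOverPrime p)

include hA in
/-- finite level existence of `τ` -/
theorem exists_tau_fin (hp2 : p ≠ 2) {m : ℕ} (hm : 0 < m) (F : Finset Qb)
    (hF : ∀ w ∈ F, A.valuation w = 1 ∧ ∀ s ∈ A.inertiaSubgroupIn ℚ, s (w ^ (p ^ m)) = w ^ (p ^ m))
    {x : Qb} (hx : x ^ p = p) :
    ∃ τ ∈ A.inertiaSubgroupIn ℚ, (∀ μ : Qb, μ ^ (p ^ m) = 1 → τ μ = μ) ∧ (∀ w ∈ F, τ w = w) ∧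
      τ x ≠ x := by
  by_contra hcon
  push Not at hcon
  have hx0 : x ≠ 0 := by
    rintro rfl
    rw [zero_pow hp.out.ne_zero] at hx
    exact hp.out.ne_zero (by exact_mod_cast hx.symm)
  have hw0 : ∀ w ∈ F, w ≠ 0 := by
    intro w hw h0
    have := (hF w hw).1
    rw [h0, map_zero] at this
    exact zero_ne_one this
  have hpx : ∀ s : GQ, (s x / x) ^ p = 1 := by
    intro s
    rw [div_pow, ← map_pow, hx, map_natCast, div_self]
    exact_mod_cast hp.out.ne_zero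
  obtain ⟨a, ha⟩ := kum_fin (p := p) (m := m) F (Im A p m) (fun s hs => hs.2)
    (fun w hw => ⟨hw0 w hw, fun s hs => by
      rw [div_pow, ← map_pow, (hF w hw).2 s hs.1, div_self (pow_ne_zero _ (hw0 w hw))]⟩) hx0
    (fun s _ => by
      obtain ⟨k, rfl⟩ := Nat.exists_eq_succ_of_ne_zero hm.ne'
      rw [pow_succ, mul_comm, pow_mul, hpx, one_pow])
    (fun s hs hsF => hcon s hs.1 hs.2 hsF)
  set x' := x * ∏ w ∈ F, w ^ a w with hx'
  have hx'0 : x' ≠ 0 := mul_ne_zero hx0 (Finset.prod_ne_zero_iff.mpr fun w hw =>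
      pow_ne_zero _ (hw0 w hw))
  have hvx' : A.valuation x' = A.valuation x := by
    rw [hx', map_mul, map_prod, Finset.prod_eq_one, mul_one]
    intro w hw
    rw [map_pow, (hF w hw).1, one_pow]
  obtain ⟨b, hb1, hb⟩ := exists_descent hA hp2 m hx'0 ha (by
    intro s hs
    rw [hx', mul_pow, ← Finset.prod_pow, map_mul, map_prod]
    congr 1
    · obtain ⟨k, rfl⟩ := Nat.exists_eq_succ_of_ne_zero hm.ne'
      rw [pow_succ, mul_comm, pow_mul, hx, map_pow, map_natCast]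
    · refine Finset.prod_congr rfl fun w hw => ?_
      rw [← pow_mul, mul_comm, pow_mul, map_pow, (hF w hw).2 s hs])
  have hb0 : b ≠ 0 := by
    rintro rfl
    rw [zero_pow (pow_pos hp.out.pos m).ne'] at hb1
    exact zero_ne_one hb1
  obtain ⟨n, hn⟩ := SEL.exists_valuation_zpow_of_inertia A hp.out hA (mul_ne_zero hx'0 hb0) hb
  have hvb : A.valuation b = 1 := v_root (pow_pos hp.out.pos m).ne' hb1
  rw [map_mul, hvb, mul_one, hvx'] at hn
  have h1 : A.valuation (p : Qb) ^ (n * (p : ℤ)) = A.valuation (p : Qb) ^ (1 : ℤ) := by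
    rw [zpow_mul, ← hn, zpow_natCast, ← map_pow, hx, zpow_one]
  have h2 := zpow_inj' (v_p_ne hp.out) (v_p_lt hA) h1
  have h3 : (p : ℤ) ∣ 1 := ⟨n, by rw [← h2]; ring⟩
  have h4 := Int.le_of_dvd one_pos h3
  have h5 := hp.out.two_le
  omega

end Fermat.Agent.ORD
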