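import Fermat.Agent.ORD.Hilb
import Fermat.Agent.Frob.QbarInst

/-!
# Total ramification of the `p`-power cyclotomic extensions, Kummer theory
-/

set_option autoImplicit false

namespace Fermat.Agent.ORD

local notation "Qb" => AlgebraicClosure ℚ
local notation "GQ" => AlgebraicClosure ℚ ≃ₐ[ℚ] AlgebraicClosure ℚ

open Polynomial

section Val

variable {K Γ₀ : Type*} [Field K] [LinearOrderedCommGroupWithZero Γ₀] {v : Valuation K Γ₀}

lemma v_root {ζ : K} {n : ℕ} (hn : n ≠ 0) (hζ : ζ ^ n = 1) : v ζ = 1 := by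
  have h : v ζ ^ n = 1 := by rw [← map_pow, hζ, map_one]
  exact (pow_eq_one_iff_of_nonneg zero_le hn).mp h

lemma v_one_sub_pow_le {ζ : K} (hζ : v ζ ≤ 1) (k : ℕ) : v (1 - ζ ^ k) ≤ v (1 - ζ) := by
  rw [← mul_neg_geom_sum, map_mul]
  refine mul_le_of_le_one_right' ?_
  refine v.map_sum_le fun i _ => ?_
  rw [map_pow]
  exact pow_le_one' hζ i

lemma v_one_sub_eq {n : ℕ} (hn : 0 < n) {ζ μ : K} (hζ : IsPrimitiveRoot ζ n)
    (hμ : IsPrimitiveRoot μ n) : v (1 - μ) = v (1 - ζ) := by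
  have : NeZero n := ⟨hn.ne'⟩
  obtain ⟨k, -, hk⟩ := hζ.eq_pow_of_pow_eq_one hμ.pow_eq_one
  obtain ⟨l, -, hl⟩ := hμ.eq_pow_of_pow_eq_one hζ.pow_eq_one
  apply le_antisymm
  · rw [← hk]
    exact v_one_sub_pow_le (v_root hn.ne' hζ.pow_eq_one).le k
  · conv_lhs => rw [← hl]
    exact v_one_sub_pow_le (v_root hn.ne' hμ.pow_eq_one).le l

/-- valuation of `1 - ζ` for a primitive `p^(k+1)`-th root of unity -/
lemma v_zeta {p : ℕ} (hp : p.Prime) (k : ℕ) {ζ : K} (hζ : IsPrimitiveRoot ζ (p ^ (k + 1))) :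
    v (1 - ζ) ^ (Nat.card (primitiveRoots (p ^ (k + 1)) K)) = v (p : K) := by
  have : Fact p.Prime := ⟨hp⟩
  have hn : 0 < p ^ (k + 1) := pow_pos hp.pos _
  have h1 := eval_one_cyclotomic_prime_pow (R := K) (p := p) k
  rw [cyclotomic_eq_prod_X_sub_primitiveRoots hζ, eval_prod] at h1
  rw [← h1, map_prod]
  have h2 : ∀ μ ∈ primitiveRoots (p ^ (k + 1)) K, v (eval 1 (X - C μ)) = v (1 - ζ) := by
    intro μ hμ
    rw [mem_primitiveRoots hn] at hμ
    rw [eval_sub, eval_X, eval_C]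
    exact v_one_sub_eq hn hζ hμ
  rw [Finset.prod_congr rfl h2, Finset.prod_const, Nat.card_eq_fintype_card, Fintype.card_coe]

lemma zpow_inj' {Γ₀ : Type*} [LinearOrderedCommGroupWithZero Γ₀] {g : Γ₀} (h0 : g ≠ 0)
    (h1 : g < 1) {n m : ℤ} (h : g ^ n = g ^ m) : n = m :=
  (zpow_right_strictAnti₀ (zero_lt_iff.mpr h0) h1).injective h

end Val

variable {p : ℕ} [hp : Fact p.Prime] {A : ValuationSubring Qb} (hA : A.LiesOverPrime p)

omit hp in
include hA in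
lemma v_p_lt : A.valuation (p : Qb) < 1 := A.mem_nonunits_iff.mp hA

omit hp in
lemma v_p_ne (hp : p.Prime) : A.valuation (p : Qb) ≠ 0 := by
  rw [Valuation.ne_zero_iff]
  exact_mod_cast hp.ne_zero

include hA in
/-- **Total ramification** of the `p`-power cyclotomic extensions: inertia acts transitively on
the primitive `p^m`-th roots of unity. -/
theorem exists_inertia_root (m : ℕ) {ζ ξ : Qb} (hζ : IsPrimitiveRoot ζ (p ^ m))
    (hξ : IsPrimitiveRoot ξ (p ^ m)) : ∃ s ∈ A.inertiaSubgroupIn ℚ, s ζ = ξ := by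
  classical
  rcases m with _ | k
  · rw [pow_zero, IsPrimitiveRoot.one_right_iff] at hζ hξ
    exact ⟨1, one_mem _, by rw [hζ, hξ]; rfl⟩
  have hn : 0 < p ^ (k + 1) := pow_pos hp.out.pos _
  set S := primitiveRoots (p ^ (k + 1)) Qb with hS
  let O := S.filter (fun μ => ∃ s ∈ A.inertiaSubgroupIn ℚ, s ζ = μ)
  have hO : ∀ μ : Qb, μ ∈ O ↔ IsPrimitiveRoot μ (p ^ (k + 1)) ∧ ∃ s ∈ A.inertiaSubgroupIn ℚ, s ζ = μ := by
    intro μ
    rw [Finset.mem_filter, hS, mem_primitiveRoots hn]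
  have hne1 : p ^ (k + 1) ≠ 1 := (Nat.one_lt_pow (Nat.succ_ne_zero k) hp.out.one_lt).ne'
  have h1ne : ∀ μ : Qb, IsPrimitiveRoot μ (p ^ (k + 1)) → 1 - μ ≠ 0 := by
    intro μ hμ h
    rw [← sub_eq_zero.mp h] at hμ
    exact hne1 (hμ.eq_orderOf.trans orderOf_one)
  let N : Qb := ∏ μ ∈ O, (1 - μ)
  have hN0 : N ≠ 0 := Finset.prod_ne_zero_iff.mpr fun μ hμ => h1ne μ ((hO μ).mp hμ).1
  have hfix : ∀ s ∈ A.inertiaSubgroupIn ℚ, s N = N := by
    intro s hs
    show s (∏ μ ∈ O, (1 - μ)) = ∏ μ ∈ O, (1 - μ)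
    rw [map_prod]
    refine Finset.prod_bij (fun μ _ => s μ) ?_ ?_ ?_ ?_
    · intro μ hμ
      obtain ⟨h1, t, ht, h2⟩ := (hO μ).mp hμ
      refine (hO _).mpr ⟨h1.map_of_injective s.injective, s * t, mul_mem hs ht, ?_⟩
      rw [AlgEquiv.mul_apply, h2]
    · intro _ _ _ _ h
      exact s.injective h
    · intro μ hμ
      obtain ⟨h1, t, ht, h2⟩ := (hO μ).mp hμ
      refine ⟨s⁻¹ μ, (hO _).mpr ⟨h1.map_of_injective (s⁻¹).injective, s⁻¹ * t,
        mul_mem (inv_mem hs) ht, ?_⟩, s.apply_symm_apply μ⟩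
      rw [AlgEquiv.mul_apply, h2]
    · intro μ _
      rw [map_sub, map_one]
  obtain ⟨n, hn'⟩ := SEL.exists_valuation_zpow_of_inertia A hp.out hA hN0 hfix
  have hvN : A.valuation N = A.valuation (1 - ζ) ^ O.card := by
    show A.valuation (∏ μ ∈ O, (1 - μ)) = _
    rw [map_prod, Finset.prod_congr rfl (fun μ hμ => v_one_sub_eq hn hζ ((hO μ).mp hμ).1),
      Finset.prod_const]
  have hz := v_zeta (v := A.valuation) hp.out k hζ
  have hcard : Nat.card (primitiveRoots (p ^ (k + 1)) Qb) = S.card := by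
    rw [Nat.card_eq_fintype_card, Fintype.card_coe]
  rw [hcard] at hz
  set g := A.valuation (1 - ζ) with hg
  have hg0 : g ≠ 0 := by
    rw [hg, Valuation.ne_zero_iff]; exact h1ne ζ hζ
  have hg1 : g < 1 := by
    by_contra hcon
    rw [not_lt] at hcon
    have h1 := one_le_pow₀ (n := S.card) hcon
    rw [hz] at h1
    exact absurd (v_p_lt hA) (not_lt.mpr h1)
  have h2 : g ^ (O.card : ℤ) = g ^ ((S.card : ℤ) * n) := by
    rw [zpow_natCast, ← hvN, hn', ← hz, ← zpow_natCast, ← zpow_mul]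
  have h3 := zpow_inj' hg0 hg1 h2
  have hOpos : 0 < O.card := Finset.card_pos.mpr ⟨ζ, (hO ζ).mpr ⟨hζ, 1, one_mem _, rfl⟩⟩
  have hOle : O.card ≤ S.card := Finset.card_filter_le _ _
  have hSpos : 0 < S.card := hOpos.trans_le hOle
  have hn1 : 1 ≤ n := by
    by_contra hcon
    push Not at hcon
    have : (S.card : ℤ) * n ≤ 0 := mul_nonpos_of_nonneg_of_nonpos (by positivity) (by omega)
    omega
  have hle : (S.card : ℤ) ≤ O.card := by
    rw [h3]
    nlinarith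
  have hOS : O = S := Finset.eq_of_subset_of_card_le (Finset.filter_subset _ _) (by exact_mod_cast hle)
  have hξO : ξ ∈ O := by
    rw [hOS, hS, mem_primitiveRoots hn]
    exact hξ
  exact ((hO ξ).mp hξO).2

/-- a simultaneous version: the action on all `p^m`-th roots of unity can be prescribed -/
theorem root_of_fix {m : ℕ} {ζ : Qb} (hζ : IsPrimitiveRoot ζ (p ^ m)) {s t : GQ} (h : s ζ = t ζ)
    {μ : Qb} (hμ : μ ^ (p ^ m) = 1) : s μ = t μ := by
  have : NeZero (p ^ m) := ⟨(pow_pos hp.out.pos m).ne'⟩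
  obtain ⟨k, -, rfl⟩ := hζ.eq_pow_of_pow_eq_one hμ
  rw [map_pow, map_pow, h]

/-- two automorphisms commute on roots of unity -/
theorem comm_root {m : ℕ} (s t : GQ) {μ : Qb} (hμ : μ ^ (p ^ m) = 1) : s (t μ) = t (s μ) := by
  have : NeZero (p ^ m) := ⟨(pow_pos hp.out.pos m).ne'⟩
  obtain ⟨ζ, hζ⟩ := HasEnoughRootsOfUnity.exists_primitiveRoot Qb (p ^ m)
  obtain ⟨a, -, ha⟩ := hζ.eq_pow_of_pow_eq_one (ξ := s ζ) (by rw [← map_pow, hζ.pow_eq_one, map_one])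
  obtain ⟨b, -, hb⟩ := hζ.eq_pow_of_pow_eq_one (ξ := t ζ) (by rw [← map_pow, hζ.pow_eq_one, map_one])
  obtain ⟨k, -, rfl⟩ := hζ.eq_pow_of_pow_eq_one hμ
  rw [map_pow, map_pow, map_pow, map_pow]
  congr 1
  rw [← ha, ← hb, map_pow, map_pow, ← ha, ← hb, ← pow_mul, ← pow_mul, mul_comm]

section Descent

/-- the subgroup of inertia fixing the `p^m`-th roots of unity -/
def Im (A : ValuationSubring Qb) (p m : ℕ) : Subgroup GQ where
  carrier := {s | s ∈ A.inertiaSubgroupIn ℚ ∧ ∀ μ : Qb, μ ^ (p ^ m) = 1 → s μ = μ}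
  mul_mem' := fun {s t} hs ht => ⟨mul_mem hs.1 ht.1, fun μ hμ => by
    rw [AlgEquiv.mul_apply, ht.2 μ hμ, hs.2 μ hμ]⟩
  one_mem' := ⟨one_mem _, fun _ _ => rfl⟩
  inv_mem' := fun {s} hs => ⟨inv_mem hs.1, fun μ hμ => by
    conv_lhs => rw [← hs.2 μ hμ]
    exact s.symm_apply_apply μ⟩

theorem mem_Im {A : ValuationSubring Qb} {p m : ℕ} {s : GQ} :
    s ∈ Im A p m ↔ s ∈ A.inertiaSubgroupIn ℚ ∧ ∀ μ : Qb, μ ^ (p ^ m) = 1 → s μ = μ := Iff.rfl

include hA in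
/-- **Descent**: an element of `K(μ_{p^m})` whose `p^m`-th power is in `K` is in `K` up to a root of
unity (`p` odd). -/
theorem exists_descent (hp2 : p ≠ 2) (m : ℕ) {x : Qb} (hx0 : x ≠ 0) (hx : ∀ s ∈ Im A p m, s x = x)
    (hxp : ∀ s ∈ A.inertiaSubgroupIn ℚ, s (x ^ (p ^ m)) = x ^ (p ^ m)) :
    ∃ b : Qb, b ^ (p ^ m) = 1 ∧ ∀ s ∈ A.inertiaSubgroupIn ℚ, s (x * b) = x * b := by
  have hne : NeZero (p ^ m) := ⟨(pow_pos hp.out.pos m).ne'⟩
  obtain ⟨ζ, hζ⟩ := HasEnoughRootsOfUnity.exists_primitiveRoot Qb (p ^ m)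
  obtain ⟨σ, hσ, hσζ⟩ := exists_inertia_root hA m hζ hζ.inv
  have hinv : ∀ μ : Qb, μ ^ (p ^ m) = 1 → σ μ = μ⁻¹ := by
    intro μ hμ
    obtain ⟨k, -, rfl⟩ := hζ.eq_pow_of_pow_eq_one hμ
    rw [map_pow, hσζ, inv_pow]
  have hc : ∀ s ∈ A.inertiaSubgroupIn ℚ, (s x / x) ^ (p ^ m) = 1 := by
    intro s hs
    rw [div_pow, ← map_pow, hxp s hs, div_self (pow_ne_zero _ hx0)]
  have hodd : Odd (p ^ m) := (hp.out.odd_of_ne_two hp2).pow
  obtain ⟨h, hh⟩ := hodd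
  set c := σ x / x with hcσ
  have hc1 : c ^ (p ^ m) = 1 := hc σ hσ
  have hc0 : c ≠ 0 := by
    intro h0
    rw [h0, zero_pow hne.out] at hc1
    exact zero_ne_one hc1
  refine ⟨c ^ (h + 1), by rw [← pow_mul, mul_comm, pow_mul, hc1, one_pow], fun s hs => ?_⟩
  have hb2 : (c ^ (h + 1)) ^ 2 = c := by
    rw [← pow_mul]
    have : (h + 1) * 2 = (2 * h + 1) + 1 := by ring
    rw [this, pow_succ, ← hh, hc1, one_mul]
  set d := s x / x with hd
  have hd1 : d ^ (p ^ m) = 1 := hc s hs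
  have hd0 : d ≠ 0 := by
    intro h0
    rw [h0, zero_pow hne.out] at hd1
    exact zero_ne_one hd1
  have hsx : s x = d * x := by rw [hd, div_mul_cancel₀ _ hx0]
  have hσx : σ x = c * x := by rw [hcσ, div_mul_cancel₀ _ hx0]
  -- commutation on `x`
  have hcomm : σ (s x) = s (σ x) := by
    have hr : σ⁻¹ * s⁻¹ * σ * s ∈ Im A p m := by
      refine ⟨mul_mem (mul_mem (mul_mem (inv_mem hσ) (inv_mem hs)) hσ) hs, fun μ hμ => ?_⟩
      have h1 : σ (s μ) = s (σ μ) := comm_root σ s hμ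
      rw [AlgEquiv.mul_apply, AlgEquiv.mul_apply, AlgEquiv.mul_apply, h1]
      have h2 : s⁻¹ (s (σ μ)) = σ μ := s.symm_apply_apply _
      rw [h2]
      exact σ.symm_apply_apply _
    have h1 := hx _ hr
    rw [AlgEquiv.mul_apply, AlgEquiv.mul_apply, AlgEquiv.mul_apply] at h1
    have h2 := congrArg σ h1
    have h3 : σ (σ⁻¹ (s⁻¹ (σ (s x)))) = s⁻¹ (σ (s x)) := σ.apply_symm_apply _
    rw [h3] at h2
    have h4 := congrArg s h2
    have h5 : s (s⁻¹ (σ (s x))) = σ (s x) := s.apply_symm_apply _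
    rw [h5] at h4
    exact h4
  have hkey : d ^ 2 * s c = c := by
    have h1 := hcomm
    rw [hsx, hσx, map_mul, map_mul, hsx, hσx, hinv d hd1] at h1
    have h2 : d⁻¹ * c = s c * d := by
      apply mul_right_cancel₀ hx0
      linear_combination h1
    field_simp at h2
    linear_combination (-1) * h2
  -- `d = b / s b`
  have hsb : s (c ^ (h + 1)) * d = c ^ (h + 1) := by
    have h1 : (s (c ^ (h + 1)) * d) ^ 2 = (c ^ (h + 1)) ^ 2 := by
      rw [mul_pow, ← map_pow, hb2, ← hkey]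
      rw [map_mul]
      have : s (d ^ 2 * s c) = s c := by rw [hkey]
      rw [map_mul] at this
      rw [this]
      ring
    have hroot : ∀ y z : Qb, y ^ (p ^ m) = 1 → z ^ (p ^ m) = 1 → y ^ 2 = z ^ 2 → y = z := by
      intro y z hy hz hyz
      have e1 : ∀ w : Qb, w ^ (p ^ m) = 1 → w = (w ^ 2) ^ (h + 1) := by
        intro w hw
        rw [← pow_mul]
        have : 2 * (h + 1) = (2 * h + 1) + 1 := by ring
        rw [this, pow_succ, ← hh, hw, one_mul]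
      rw [e1 y hy, e1 z hz, hyz]
    refine hroot _ _ ?_ ?_ h1
    · rw [mul_pow, ← map_pow, hd1, mul_one, ← pow_mul, mul_comm, pow_mul, hc1, one_pow, map_one]
    · rw [← pow_mul, mul_comm, pow_mul, hc1, one_pow]
  rw [map_mul, hsx]
  linear_combination x * hsb

end Descent

end Fermat.Agent.ORD
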